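import Mathlib
import Fermat.Agent.LT.T7.H298.MatchQCut
import Fermat.Agent.LT.T7.H558.FactDownSpec

/-!
# Row LT, tower T7, node Q2.7.7 `MQ298.FactDownQC298` (helper751, registry 2675): THE CUT -- Spec

OFF-MAIN.  Definitions and frozen Props only (the proved tops are in `FactDownQTop.lean`).
No hole, nothing assumed.  ADDITIVE (new names only, suffix `751`).  Vocabulary:
`T7/H298/MatchQCut.lean` (helper298, sha256 74dc2a3c) and `T7/H558/FactDownSpec.lean`
(helper558, sha256 8043f526: the cut of the cubic node `H305.FactDownC305`), byte-identical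
copies.  MIRROR of the cut of helper558, leaf by leaf: the proofs of the cubic leaves port with
`K = ℚ`, ONE real place, `GL₂(ℝ)` instead of `GL₂(ℂ)`.

    factDownQC_of_parts751 : CutOnDownQC751 → FactIntDownQC751 → MQ298.FactDownQC298
    cutOnDownQC_of751 : H305.SuppDownC305 ℚ → H558.OutOpenC558 ℚ → H558.CompContC558 ℚ →
        ReContQC751 → H558.TorCommIdC558 ℚ → SuppOutQC751 → H558.HaarSigmaC558 ℚ →
        HaarSigmaRC751 → CutOnOutQC751 → CutOnDownQC751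
    factIntDownQC_of751 : MQ298.HaarSplitQC298 → H558.OutOpenC558 ℚ → H558.CompContC558 ℚ →
        ReContQC751 → H558.BiInvContC558 ℚ → RayFinQC751 → PtFactQC751 → ArchIntblRC751 →
        H558.HaarSigmaC558 ℚ → HaarSigmaRC751 → FactIntDownQC751

## REUSED VERBATIM (`K = ℚ`; closed or in work for every number field)

`H305.SuppDownC305 ℚ`, `H558.OutOpenC558 ℚ`, `H558.CompContC558 ℚ` (the finite places),
`H558.TorCommIdC558 ℚ`, `H558.BiInvContC558 ℚ`, `H558.HaarSigmaC558 ℚ` (the finite places),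
`MQ298.HaarSplitQC298` (leaf of helper298, row 2674).

## NEW (the real place)

`ReContQC751` (FDQ.2), `SuppOutQC751` (FDQ.4), `CutOnOutQC751` (FDQ.5), `RayFinQC751` (FDQ.6),
`PtFactQC751` (FDQ.7), `ArchIntblRC751` (FDQ.8), `HaarSigmaRC751` (FDQ.9).

FALSITY CHECKS (helper751).  As in the cut of helper558.  `RayFinQC751`: the real component of
`r` is the scalar `t`, `t² = 2`, `det (z⁻¹ (γ r^j)_∞ z) = det γ_∞ · t^{2j}`.  `ArchIntblRC751`:
`γ₀ ∈ GL₂(ℝ)` regular (split or not): the orbit of `γ₀ z` is closed (the matrices with the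
characteristic polynomial of `γ₀ z`), `{y : y⁻¹ γ₀ z y ∈ supp F} ⊆ T C`, `C` compact
(`y = M₀⁻¹ [u; u ω]` for a cyclic vector `u ∈ {e₁, e₂, e₁ + e₂}` of `ω`).  Sum over `j`: only the
real factor depends on `j`; `integral_prod_mul` needs no integrability.
-/

set_option autoImplicit false

open AutomorphicForm IsDedekindDomain NumberField MeasureTheory
open scoped ComplexConjugate

noncomputable section

namespace Fermat.Agent.LT.T7.H751

open Fermat.Agent.LT.H556 Fermat.Agent.LT.H556.A0 Fermat.Agent.LT.T7 Fermat.Agent.LT.T7.H305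

attribute [local instance] Fermat.Agent.LT.T5.instMeasurableSpaceG

/-- **ASSET LEAF FDQ.2 = RE-CONT.**  The real component `GL₂(𝔸_ℚ) → GL₂(ℝ)` is continuous.
Proof.  `MQ298.reHomQ298` is a continuous ring homomorphism (projection, evaluation,
`extensionEmbeddingOfIsReal` is an isometry); `Units.map` of a continuous homomorphism of
topological monoids is continuous (as `H558.CompContC558`). -/
def ReContQC751 : Prop := Continuous (MQ298.reGLQ298)

/-- **LEAF FDQ.4 = SUPP-OUT over `ℚ`.**  Mirror of `H558.SuppOutC558` for `MQ298.pureQ298`. -/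
def SuppOutQC751 : Prop :=
  ∀ r : G ℚ, T5.IsRayGen r →
    ∀ (S : Finset (HeightOneSpectrum (𝓞 ℚ)))
      (f₀ : ∀ v : HeightOneSpectrum (𝓞 ℚ), GL (Fin 2) (v.adicCompletion ℚ) → ℂ)
      (Fr : GL (Fin 2) ℝ → ℂ) (γ : GL (Fin 2) ℚ) (x : G ℚ),
      T5.twTerm r (T5.AdelicAut.id ℚ) (MQ298.pureQ298 S f₀ Fr) γ x ≠ 0 →
        OutT305 S (x⁻¹ * T5.ratG γ * x)

/-- **LEAF FDQ.9 = HAAR-SIGMA at the real place.**  The Haar measures of `GL₂(ℝ)` (Borel) are
σ-finite; the images in `GL₂(ℝ)` of the Haar measures of the centralisers are σ-finite.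
Mirror of the clauses 2 and 4 of `H558.HaarSigmaC558`. -/
def HaarSigmaRC751 : Prop :=
  (∀ μ : @Measure (GL (Fin 2) ℝ) (borel _),
      @Measure.IsHaarMeasure _ _ _ (borel _) μ → @SigmaFinite _ (borel _) μ) ∧
  ∀ (γ₀ : GL (Fin 2) ℝ) (μT : @Measure (cent305 γ₀) (borel _)),
      @Measure.IsHaarMeasure _ _ _ (borel _) μT →
      @SigmaFinite _ (borel _) (@Measure.map _ _ (borel _) (borel _) Subtype.val μT)

/-- **LEAF FDQ.5 = CUT-ON-OUT over `ℚ`.**  For `x' ∈ Out_S`: `∫_{T_𝔸(γ)} β(t x') dμT(t) = 1` for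
the product cut-off `β = MQ298.prodCutQ298 S cT L`.  Mirror of `H558.CutOnOutC558`.
Proof.  `t x' ∈ Out_S ⟺ t ∈ Out_S`; the integral is the integral over `μT` restricted to
`Out_S` of a function of `MQ298.compSQ298 S t`; `MQ298.IsTorConstQ298` (the constant `cT`
cancels); `integral_prod_mul`, `integral_fintype_prod_eq_prod` (no integrability needed; the
measures are σ-finite: hypotheses); `IsLocCut305`, `IsCut305`. -/
def CutOnOutQC751 : Prop :=
  (∀ (v : HeightOneSpectrum (𝓞 ℚ)) (γ₀ : GL (Fin 2) (v.adicCompletion ℚ))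
      (μT : @Measure (T6.twCentSub (T6.glAut (RingEquiv.refl (v.adicCompletion ℚ))) γ₀)
        (borel _)),
      @Measure.IsHaarMeasure _ _ _ (borel _) μT →
      @SigmaFinite _ (borel _) (@Measure.map _ _ (borel _) (borel _) Subtype.val μT)) →
  (∀ (γ₀ : GL (Fin 2) ℝ) (μT : @Measure (cent305 γ₀) (borel _)),
      @Measure.IsHaarMeasure _ _ _ (borel _) μT →
      @SigmaFinite _ (borel _) (@Measure.map _ _ (borel _) (borel _) Subtype.val μT)) →
  (∀ v : HeightOneSpectrum (𝓞 ℚ), Continuous (finGL305 (K := ℚ) v)) → ReContQC751 →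
  ∀ (m : HeightOneSpectrum (𝓞 ℚ) → ℕ) (S : Finset (HeightOneSpectrum (𝓞 ℚ)))
    (γ : GL (Fin 2) ℚ), T6.IsEll γ → GoodOut305 S γ →
  ∀ μT : @Measure (tA305 (T5.AdelicAut.id ℚ) γ) (borel _),
    @Measure.IsHaarMeasure _ _ _ (borel _) μT →
  ∀ (L : MQ298.LocDataQ298 γ) (cT : ℝ), MQ298.IsLocDataQ298 m L → 0 < cT →
    MQ298.IsTorConstQ298 γ μT L cT →
  ∀ x' : G ℚ, OutT305 S x' →
    @integral _ _ _ _ (borel _) μT
      (fun t : tA305 (T5.AdelicAut.id ℚ) γ => MQ298.prodCutQ298 S cT L ((t : G ℚ) * x')) = 1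

/-- **LEAF FDQ.6 = RAY-FIN over `ℚ`.**  The sum over the ray is finite, uniformly: there is a
finite set `J` of exponents such that for `j ∉ J` the function `Fr` vanishes on the conjugacy
class of the real component of `γ r^j`.  Mirror of `H558.RayFinC558`.
Proof.  `det (z⁻¹ (γ r^j)_∞ z) = det γ_∞ · t^{2j}` with `t > 1` (`t² = 2`); `det` maps the
compact support of `Fr` onto a compact subset of `ℝ \ {0}`. -/
def RayFinQC751 : Prop :=
  ∀ r : G ℚ, T5.IsRayGen r →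
    ∀ Fr : GL (Fin 2) ℝ → ℂ, Continuous Fr → HasCompactSupport Fr →
    ∀ γ : GL (Fin 2) ℚ, ∃ J : Finset ℤ, ∀ j : ℤ, j ∉ J →
      ∀ z : GL (Fin 2) ℝ, Fr (z⁻¹ * MQ298.reGLQ298 (T5.ratG γ * r ^ j) * z) = 0

/-- **LEAF FDQ.7 = PT-FACT over `ℚ`.**  For `y ∈ Out_S` and `γ` integral outside `S` the term `j`
of the integrand is the product of the local terms.  Mirror of `H558.PtFactC558`. -/
def PtFactQC751 : Prop :=
  ∀ r : G ℚ, T5.IsRayGen r →
    ∀ (S : Finset (HeightOneSpectrum (𝓞 ℚ)))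
      (f₀ : ∀ v : HeightOneSpectrum (𝓞 ℚ), GL (Fin 2) (v.adicCompletion ℚ) → ℂ)
      (Fr : GL (Fin 2) ℝ → ℂ) (γ : GL (Fin 2) ℚ), IntOut305 S γ →
    ∀ (y : G ℚ) (j : ℤ), OutT305 S y →
      MQ298.pureQ298 S f₀ Fr (y⁻¹ * T5.ratG γ * (T5.AdelicAut.id ℚ).onG y * r ^ j)
        = (∏ v ∈ S, f₀ v ((finGL305 v y)⁻¹ * locG305 v γ * finGL305 v y)) *
          Fr ((MQ298.reGLQ298 y)⁻¹ * MQ298.reGLQ298 (T5.ratG γ * r ^ j) * MQ298.reGLQ298 y)

/-- **LEAF FDQ.8 = ARCH-INTBL (`GL₂(ℝ)` only).**  For `F` continuous with compact support, `γ₀`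
regular, `z` central and a continuous cut-off function `β` for the centraliser of `γ₀`: the
local integrand `y ↦ F(y⁻¹ γ₀ z y) β(y)` is integrable.  Mirror of `H558.ArchIntblC558`.
Proof.  `γ' = γ₀ z` is regular with the centraliser `T` of `γ₀`; its conjugacy class is closed
(the matrices with the characteristic polynomial of `γ'`) and
`{y : y⁻¹ γ' y ∈ supp F} ⊆ T C` with `C` compact: for `ω = y⁻¹ γ' y` and a cyclic row vector `u`
of `ω` among `e₁, e₂, e₁ + e₂`, `y ∈ T · M₀⁻¹ [u; u ω]` (`M₀ = [u₀; u₀ γ']`, `u₀` cyclic for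
`γ'`), and `max_u |det [u; u ω]|` is bounded below on the compact set of the `ω`.  Then Tonelli as
in `H558.ArchIntblC558` (`χ ≥ 1` on `V C`, `V` a compact neighbourhood of `1`:
`∫_T χ(t c) dt ≥ μT(T ∩ V) > 0`). -/
def ArchIntblRC751 : Prop :=
  ∀ μr : @Measure (GL (Fin 2) ℝ) (borel _), @Measure.IsHaarMeasure _ _ _ (borel _) μr →
    ∀ F : GL (Fin 2) ℝ → ℂ, Continuous F → HasCompactSupport F →
    ∀ γ₀ : GL (Fin 2) ℝ, T6.IsReg γ₀ →
    ∀ z : GL (Fin 2) ℝ, (∀ g : GL (Fin 2) ℝ, z * g = g * z) →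
    ∀ μT : @Measure (cent305 γ₀) (borel _), @Measure.IsHaarMeasure _ _ _ (borel _) μT →
    ∀ β : GL (Fin 2) ℝ → ℝ, IsCut305 γ₀ μT β →
      @Integrable _ _ _ _ (borel _) (H558.locFn558 β F (γ₀ * z)) μr

/-- **PART A = CUT-ON-DOWN over `ℚ`** (the cut-off part of `MQ298.FactDownQC298`). -/
def CutOnDownQC751 : Prop :=
  ∀ R : Frame5 ℚ, IsFrame5 R →
    ∀ (m : HeightOneSpectrum (𝓞 ℚ) → ℕ) (S : Finset (HeightOneSpectrum (𝓞 ℚ)))
      (f₀ : ∀ v : HeightOneSpectrum (𝓞 ℚ), GL (Fin 2) (v.adicCompletion ℚ) → ℂ)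
      (Fr : GL (Fin 2) ℝ → ℂ),
    ∀ γ : GL (Fin 2) ℚ, T6.IsEll γ → GoodOut305 S γ →
    ∀ μT : @Measure (tA305 (T5.AdelicAut.id ℚ) γ) (borel _),
      @Measure.IsHaarMeasure _ _ _ (borel _) μT →
    ∀ (L : MQ298.LocDataQ298 γ) (cT : ℝ), MQ298.IsLocDataQ298 m L → 0 < cT →
      MQ298.IsTorConstQ298 γ μT L cT →
      IsCutOn305 (T5.AdelicAut.id ℚ) γ μT (MQ298.prodCutQ298 S cT L)
        {x | T5.twTerm R.r (T5.AdelicAut.id ℚ) (MQ298.pureQ298 S f₀ Fr) γ x ≠ 0}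

/-- **PART B = FACT-INT-DOWN over `ℚ`** (the integral part of `MQ298.FactDownQC298`). -/
def FactIntDownQC751 : Prop :=
  ∀ R : Frame5 ℚ, IsFrame5 R →
    ∀ μr : @Measure (GL (Fin 2) ℝ) (borel _), @Measure.IsHaarMeasure _ _ _ (borel _) μr →
    ∀ (T₀ : Finset (HeightOneSpectrum (𝓞 ℚ))) (m : HeightOneSpectrum (𝓞 ℚ) → ℕ),
      (∀ v : HeightOneSpectrum (𝓞 ℚ), v ∉ T₀ → m v = 0) →
    ∃ cG : ℝ, 0 < cG ∧
      ∀ S : Finset (HeightOneSpectrum (𝓞 ℚ)), T₀ ⊆ S →
      ∀ (f₀ : ∀ v : HeightOneSpectrum (𝓞 ℚ), GL (Fin 2) (v.adicCompletion ℚ) → ℂ)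
        (Fr : GL (Fin 2) ℝ → ℂ),
        (∀ v ∈ S, T6.IsBiInv (T6.InU (m v)) (f₀ v) ∧ T6.HasFinSupp (T6.InU (m v)) (f₀ v)) →
        Continuous Fr → HasCompactSupport Fr →
      ∀ γ : GL (Fin 2) ℚ, T6.IsEll γ → GoodOut305 S γ →
      ∀ μT : @Measure (tA305 (T5.AdelicAut.id ℚ) γ) (borel _),
        @Measure.IsHaarMeasure _ _ _ (borel _) μT →
      ∀ (L : MQ298.LocDataQ298 γ) (cT : ℝ), MQ298.IsLocDataQ298 m L → 0 < cT →
        MQ298.IsTorConstQ298 γ μT L cT →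
        cutInt305 R.r (T5.AdelicAut.id ℚ) (MQ298.pureQ298 S f₀ Fr) γ R.μ
            (MQ298.prodCutQ298 S cT L)
          = ((cG / cT : ℝ) : ℂ) * MQ298.factValQ298 R.r S L f₀ μr Fr

/-! ## Appendix: the equation lemmas of the definitions of this file are realised HERE -/

theorem eqns_realised_factDownQ751 : True := by
  have _h0 := @ReContQC751.eq_1
  have _h1 := @SuppOutQC751.eq_1
  have _h2 := @HaarSigmaRC751.eq_1
  have _h3 := @CutOnOutQC751.eq_1
  have _h4 := @RayFinQC751.eq_1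
  have _h5 := @PtFactQC751.eq_1
  have _h6 := @ArchIntblRC751.eq_1
  have _h7 := @CutOnDownQC751.eq_1
  have _h8 := @FactIntDownQC751.eq_1
  have _g0 := @ReContQC751.eq_def
  have _g1 := @SuppOutQC751.eq_def
  have _g2 := @HaarSigmaRC751.eq_def
  have _g3 := @CutOnOutQC751.eq_def
  have _g4 := @RayFinQC751.eq_def
  have _g5 := @PtFactQC751.eq_def
  have _g6 := @ArchIntblRC751.eq_def
  have _g7 := @CutOnDownQC751.eq_def
  have _g8 := @FactIntDownQC751.eq_def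
  trivial

end Fermat.Agent.LT.T7.H751

end
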