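import Mathlib
import Fermat.Agent.LT.T7.H751.FactDownQSpec
import Fermat.Agent.LT.T7.H558.FactDownTopA

/-!
# Row LT, tower T7, node Q2.7.7 `MQ298.FactDownQC298` (helper751, registry 2675): the tops of the
# cut (level 1 and PART A)

OFF-MAIN.  Complete proofs, nothing assumed.

    factDownQC_of_parts751 : CutOnDownQC751 → FactIntDownQC751 → MQ298.FactDownQC298
    cutOnDownQC_of751 : H305.SuppDownC305 ℚ → H558.OutOpenC558 ℚ → H558.CompContC558 ℚ →
        ReContQC751 → H558.TorCommIdC558 ℚ → SuppOutQC751 → H558.HaarSigmaC558 ℚ →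
        HaarSigmaRC751 → CutOnOutQC751 → CutOnDownQC751

Mirror of `T7/H558/FactDownTop.lean`, `FactDownTopA.lean` (helper558); `H558.torus_transl558` is
used as it is (`K = ℚ`).
-/

set_option autoImplicit false

open AutomorphicForm IsDedekindDomain NumberField MeasureTheory
open scoped ComplexConjugate

noncomputable section

namespace Fermat.Agent.LT.T7.H751

open Fermat.Agent.LT.H556 Fermat.Agent.LT.H556.A0 Fermat.Agent.LT.T7 Fermat.Agent.LT.T7.H305

attribute [local instance] Fermat.Agent.LT.T5.instMeasurableSpaceG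

/-- **THE TOP (level 1).**  The node from its two parts. -/
theorem factDownQC_of_parts751 (hA : CutOnDownQC751) (hB : FactIntDownQC751) :
    MQ298.FactDownQC298 := by
  intro R hR μr hμr T₀ m hm
  obtain ⟨cG, hcG, hint⟩ := hB R hR μr hμr T₀ m hm
  refine ⟨cG, hcG, ?_⟩
  intro S hS f₀ Fr hf₀ hFc hFs γ hγ hgood μT hμT L cT hL hcT hT
  exact ⟨hA R hR m S f₀ Fr γ hγ hgood μT hμT L cT hL hcT hT,
    hint S hS f₀ Fr hf₀ hFc hFs γ hγ hgood μT hμT L cT hL hcT hT⟩

/-- The continuous factor of the product cut-off over `ℚ`. -/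
def prodCutCoreQ751 (S : Finset (HeightOneSpectrum (𝓞 ℚ))) (cT : ℝ) {γ : GL (Fin 2) ℚ}
    (L : MQ298.LocDataQ298 γ) (y : G ℚ) : ℝ :=
  cT⁻¹ * (∏ v ∈ S, L.βv v (finGL305 v y)) * L.βr (MQ298.reGLQ298 y)

theorem prodCutQ_eq_indicator751 (S : Finset (HeightOneSpectrum (𝓞 ℚ))) (cT : ℝ)
    {γ : GL (Fin 2) ℚ} (L : MQ298.LocDataQ298 γ) :
    MQ298.prodCutQ298 S cT L
      = Set.indicator {y : G ℚ | OutT305 S y} (prodCutCoreQ751 S cT L) := by
  classical
  funext y
  by_cases h : OutT305 S y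
  · rw [Set.indicator_of_mem (show y ∈ {y : G ℚ | OutT305 S y} from h)]
    change (if OutT305 S y then _ else _) = _
    rw [if_pos h]
    rfl
  · rw [Set.indicator_of_notMem (show y ∉ {y : G ℚ | OutT305 S y} from h)]
    change (if OutT305 S y then _ else _) = _
    rw [if_neg h]

theorem continuous_prodCutCoreQ751
    (hfin : ∀ v : HeightOneSpectrum (𝓞 ℚ), Continuous (finGL305 (K := ℚ) v))
    (hRe : ReContQC751)
    (m : HeightOneSpectrum (𝓞 ℚ) → ℕ) (S : Finset (HeightOneSpectrum (𝓞 ℚ))) (cT : ℝ)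
    {γ : GL (Fin 2) ℚ} (L : MQ298.LocDataQ298 γ) (hL : MQ298.IsLocDataQ298 m L) :
    Continuous (prodCutCoreQ751 S cT L) := by
  unfold prodCutCoreQ751
  refine (continuous_const.mul (continuous_finsetProd _ fun v _ => ?_)).mul ?_
  · exact (hL.cut v).1.comp (hfin v)
  · exact hL.cutr.1.comp hRe

theorem prodCutQ_nonneg751 (m : HeightOneSpectrum (𝓞 ℚ) → ℕ)
    (S : Finset (HeightOneSpectrum (𝓞 ℚ))) (cT : ℝ) (hcT : 0 < cT)
    {γ : GL (Fin 2) ℚ} (L : MQ298.LocDataQ298 γ) (hL : MQ298.IsLocDataQ298 m L) (y : G ℚ) :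
    0 ≤ MQ298.prodCutQ298 S cT L y := by
  classical
  rw [prodCutQ_eq_indicator751]
  refine Set.indicator_nonneg (fun y _ => ?_) y
  unfold prodCutCoreQ751
  refine mul_nonneg (mul_nonneg (inv_nonneg.2 hcT.le) (Finset.prod_nonneg fun v _ => ?_)) ?_
  · exact (hL.cut v).2.1 _
  · exact hL.cutr.2.1 _

/-- **THE TOP OF PART A.** -/
theorem cutOnDownQC_of751 (hSD : SuppDownC305 ℚ) (hOpen : H558.OutOpenC558 ℚ)
    (hCont : H558.CompContC558 ℚ) (hRe : ReContQC751) (hComm : H558.TorCommIdC558 ℚ)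
    (hSO : SuppOutQC751) (hσ : H558.HaarSigmaC558 ℚ) (hσR : HaarSigmaRC751)
    (hCut : CutOnOutQC751) : CutOnDownQC751 := by
  intro R hR m S f₀ Fr γ hγ hgood μT hμT L cT hL hcT hT
  refine ⟨?_, prodCutQ_nonneg751 m S cT hcT L hL, ?_⟩
  · rw [prodCutQ_eq_indicator751]
    have : BorelSpace (G ℚ) := ⟨rfl⟩
    exact (continuous_prodCutCoreQ751 hCont.1 hRe m S cT L hL).measurable.indicator
      (hOpen S).measurableSet
  · intro x hx
    have h1 : OutT305 S (x⁻¹ * T5.ratG γ * x) := hSO R.r hR.ray S f₀ Fr γ x hx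
    obtain ⟨t, ht, hout⟩ := hSD γ S hgood x h1
    have hone := hCut hσ.2.2.1 hσR.2 hCont.1 hRe m S γ hγ hgood μT hμT L cT hL hcT hT
      (t⁻¹ * x) hout
    have htr := H558.torus_transl558 hComm γ hγ μT hμT (MQ298.prodCutQ298 S cT L) t ht
      (t⁻¹ * x)
    rw [mul_inv_cancel_left] at htr
    rw [htr]
    exact hone

end Fermat.Agent.LT.T7.H751

end
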