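import Mathlib

/-!
# Row LT, tower T7, nodes `FactDown` (helper751): the ABSTRACT Fubini step

OFF-MAIN.  MATHLIB ONLY.  No hole, nothing assumed.  ADDITIVE (new names only, suffix `751`).

`integral_split751`: if the image of `μ|_{Out}` under `comp : X → (∏_i Y_i) × Z` is
`c · (∏_i ν_i) × ρ`, then for functions `a_i` on `Y_i` (measurable) and `b_j` on `Z`
(measurable, integrable; `j` in a finite set):

    ∫_{Out} ∏_i a_i((comp x)_i) · ∑_j b_j((comp x)_Z) dμ = c · ∏_i ∫ a_i dν_i · ∑_j ∫ b_j dρ.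

NO integrability of the `a_i` is needed (`integral_prod_mul`, `integral_fintype_prod_eq_prod`).
-/

set_option autoImplicit false

open MeasureTheory

namespace Fermat.Agent.LT.T7.H751

theorem integral_split751 {X Z ι J : Type*} [Fintype ι] {Y : ι → Type*}
    [MeasurableSpace X] [∀ i, MeasurableSpace (Y i)] [MeasurableSpace Z]
    (μ : Measure X) (ν : ∀ i, Measure (Y i)) [∀ i, SigmaFinite (ν i)] (ρ : Measure Z)
    [SFinite ρ] (Out : Set X) (comp : X → (∀ i, Y i) × Z) (hcomp : Measurable comp)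
    (c : ℝ) (hc : 0 ≤ c)
    (hsp : Measure.map comp (μ.restrict Out) = ENNReal.ofReal c • ((Measure.pi ν).prod ρ))
    (a : ∀ i, Y i → ℂ) (ha : ∀ i, Measurable (a i))
    (s : Finset J) (b : J → Z → ℂ) (hbm : ∀ j ∈ s, Measurable (b j))
    (hb : ∀ j ∈ s, Integrable (b j) ρ) :
    ∫ x in Out, (∏ i, a i ((comp x).1 i)) * (∑ j ∈ s, b j (comp x).2) ∂μ
      = (c : ℂ) * ((∏ i, ∫ y, a i y ∂(ν i)) * ∑ j ∈ s, ∫ z, b j z ∂ρ) := by
  have hA : Measurable fun p : (∀ i, Y i) × Z => ∏ i, a i (p.1 i) :=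
    Finset.measurable_prod _ fun i _ => (ha i).comp ((measurable_pi_apply i).comp measurable_fst)
  have hB : Measurable fun p : (∀ i, Y i) × Z => ∑ j ∈ s, b j p.2 :=
    Finset.measurable_sum _ fun j hj => (hbm j hj).comp measurable_snd
  have hH : Measurable fun p : (∀ i, Y i) × Z => (∏ i, a i (p.1 i)) * (∑ j ∈ s, b j p.2) :=
    hA.mul hB
  have h1 : ∫ x in Out, (∏ i, a i ((comp x).1 i)) * (∑ j ∈ s, b j (comp x).2) ∂μ
      = ∫ p, (∏ i, a i (p.1 i)) * (∑ j ∈ s, b j p.2)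
          ∂(Measure.map comp (μ.restrict Out)) :=
    (integral_map hcomp.aemeasurable hH.aestronglyMeasurable).symm
  rw [h1, hsp, integral_smul_measure, ENNReal.toReal_ofReal hc]
  have h2 : ∫ p, (∏ i, a i (p.1 i)) * (∑ j ∈ s, b j p.2) ∂((Measure.pi ν).prod ρ)
      = (∫ y, ∏ i, a i (y i) ∂(Measure.pi ν)) * ∫ z, ∑ j ∈ s, b j z ∂ρ :=
    integral_prod_mul (fun y : ∀ i, Y i => ∏ i, a i (y i)) (fun z : Z => ∑ j ∈ s, b j z)
  rw [h2, integral_fintype_prod_eq_prod, integral_finsetSum s hb]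
  rw [Complex.real_smul]

end Fermat.Agent.LT.T7.H751
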