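import Mathlib
import Fermat.Agent.LT.T7.H751.FactDownQSpec
import Fermat.Agent.LT.T7.H751.FactAbs
import Fermat.Agent.LT.T7.H298.MatchQCutTop

/-!
# Row LT, tower T7, node Q2.7.7 `MQ298.FactDownQC298` (helper751, registry 2675 / 2704):
# the top of PART B (the integral part)

OFF-MAIN.  Complete proof, nothing assumed.

    factIntDownQC_of751 : MQ298.HaarSplitQC298 → H558.OutOpenC558 ℚ → H558.CompContC558 ℚ →
        ReContQC751 → H558.BiInvContC558 ℚ → RayFinQC751 → PtFactQC751 → ArchIntblRC751 →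
        H558.HaarSigmaC558 ℚ → HaarSigmaRC751 → FactIntDownQC751

Route.  On `Out_S` the integrand is `c_T⁻¹ ∏_v a_v(y_v) ∑_{j ∈ J} b_j(y_∞)` (`PtFactQC751`,
`RayFinQC751`), `0` outside; `HaarSplitQC298` and the abstract Fubini step
`integral_split751` (`FactAbs.lean`, Mathlib only); the real factors are integrable
(`ArchIntblRC751`; the real component of `r^j` is a scalar matrix).
-/

set_option autoImplicit false

open AutomorphicForm IsDedekindDomain NumberField MeasureTheory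
open scoped ComplexConjugate

noncomputable section

namespace Fermat.Agent.LT.T7.H751

open Fermat.Agent.LT.H556 Fermat.Agent.LT.H556.A0 Fermat.Agent.LT.T7 Fermat.Agent.LT.T7.H305

attribute [local instance] Fermat.Agent.LT.T5.instMeasurableSpaceG

/-! ## 1. The real component of the ray -/

theorem reHomQ_ofReal751 (x : Adl ℚ) :
    ((MQ298.reHomQ298 x : ℝ) : ℂ) = T5.infHom Rat.infinitePlace x :=
  InfinitePlace.Completion.extensionEmbeddingOfIsReal_apply Rat.isReal_infinitePlace _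

/-- The real component of the ray generator is a scalar matrix. -/
theorem reGL_ray_scalar751 {r : G ℚ} (hr : T5.IsRayGen r) :
    ∃ t : ℝ, ((MQ298.reGLQ298 r : GL (Fin 2) ℝ) : Matrix (Fin 2) (Fin 2) ℝ)
      = Matrix.diagonal fun _ => t := by
  obtain ⟨-, t, -, -, hinf⟩ := hr
  refine ⟨t, ?_⟩
  ext a b
  have h1 := congrFun (congrFun (hinf Rat.infinitePlace) a) b
  have h2 : infComp Rat.infinitePlace r a b
      = ((MQ298.reHomQ298 ((r : Matrix (Fin 2) (Fin 2) (Adl ℚ)) a b) : ℝ) : ℂ) :=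
    (reHomQ_ofReal751 _).symm
  rw [h2] at h1
  have h3 : ((MQ298.reGLQ298 r : GL (Fin 2) ℝ) : Matrix (Fin 2) (Fin 2) ℝ) a b
      = MQ298.reHomQ298 ((r : Matrix (Fin 2) (Fin 2) (Adl ℚ)) a b) := rfl
  rw [h3]
  apply Complex.ofReal_injective
  rw [h1]
  by_cases hab : a = b
  · subst hab
    simp
  · simp [Matrix.diagonal_apply_ne _ hab]

theorem reGL_ray_comm751 {r : G ℚ} (hr : T5.IsRayGen r) (g : GL (Fin 2) ℝ) :
    MQ298.reGLQ298 r * g = g * MQ298.reGLQ298 r := by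
  obtain ⟨t, ht⟩ := reGL_ray_scalar751 hr
  apply Units.ext
  change ((MQ298.reGLQ298 r : GL (Fin 2) ℝ) : Matrix (Fin 2) (Fin 2) ℝ)
      * (g : Matrix (Fin 2) (Fin 2) ℝ)
    = (g : Matrix (Fin 2) (Fin 2) ℝ) * ((MQ298.reGLQ298 r : GL (Fin 2) ℝ) : Matrix (Fin 2) (Fin 2) ℝ)
  rw [ht]
  ext i j
  simp [Matrix.diagonal_mul, Matrix.mul_diagonal, mul_comm]

theorem reGL_ray_zpow_comm751 {r : G ℚ} (hr : T5.IsRayGen r) (j : ℤ) (g : GL (Fin 2) ℝ) :
    MQ298.reGLQ298 (r ^ j) * g = g * MQ298.reGLQ298 (r ^ j) := by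
  rw [map_zpow]
  exact (Commute.zpow_left (show Commute (MQ298.reGLQ298 r) g from reGL_ray_comm751 hr g) j).eq

/-! ## 2. The local integrands -/

/-- The local integrand at the finite place `v`. -/
def aFn751 {γ : GL (Fin 2) ℚ} (L : MQ298.LocDataQ298 γ)
    (f₀ : ∀ v : HeightOneSpectrum (𝓞 ℚ), GL (Fin 2) (v.adicCompletion ℚ) → ℂ)
    (v : HeightOneSpectrum (𝓞 ℚ)) : GL (Fin 2) (v.adicCompletion ℚ) → ℂ :=
  H558.locFn558 (L.βv v) (f₀ v) (locG305 v γ)

/-- The local integrand at the real place, term `j` of the ray. -/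
def bFn751 (r : G ℚ) {γ : GL (Fin 2) ℚ} (L : MQ298.LocDataQ298 γ) (Fr : GL (Fin 2) ℝ → ℂ)
    (j : ℤ) : GL (Fin 2) ℝ → ℂ :=
  H558.locFn558 L.βr Fr (MQ298.reGLQ298 (T5.ratG γ * r ^ j))

theorem continuous_locFn751 {H : Type} [Group H] [TopologicalSpace H] [IsTopologicalGroup H]
    {β : H → ℝ} {f : H → ℂ} (hβ : Continuous β) (hf : Continuous f) (γ : H) :
    Continuous (H558.locFn558 β f γ) := by
  unfold H558.locFn558
  exact (hf.comp ((continuous_inv.mul continuous_const).mul continuous_id)).mul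
    (Complex.continuous_ofReal.comp hβ)

/-- The pointwise form of the integrand on `Out_S`. -/
theorem integrand_eq751 (hPF : PtFactQC751)
    (R : Frame5 ℚ) (hR : IsFrame5 R) (S : Finset (HeightOneSpectrum (𝓞 ℚ)))
    (f₀ : ∀ v : HeightOneSpectrum (𝓞 ℚ), GL (Fin 2) (v.adicCompletion ℚ) → ℂ)
    (Fr : GL (Fin 2) ℝ → ℂ) (γ : GL (Fin 2) ℚ) (hint : IntOut305 S γ)
    (L : MQ298.LocDataQ298 γ) (cT : ℝ) (J : Finset ℤ)
    (hJ : ∀ j : ℤ, j ∉ J →
      ∀ z : GL (Fin 2) ℝ, Fr (z⁻¹ * MQ298.reGLQ298 (T5.ratG γ * R.r ^ j) * z) = 0)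
    (y : G ℚ) :
    T5.twTerm R.r (T5.AdelicAut.id ℚ) (MQ298.pureQ298 S f₀ Fr) γ y
        * ((MQ298.prodCutQ298 S cT L y : ℝ) : ℂ)
      = Set.indicator {y : G ℚ | OutT305 S y}
          (fun y => ((cT⁻¹ : ℝ) : ℂ) *
            ((∏ v : S, aFn751 L f₀ v.1 ((MQ298.compSQ298 S y).1 v))
              * ∑ j ∈ J, bFn751 R.r L Fr j (MQ298.compSQ298 S y).2)) y := by
  classical
  by_cases hy : OutT305 S y
  · rw [Set.indicator_of_mem (show y ∈ {y : G ℚ | OutT305 S y} from hy)]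
    have h1 : T5.twTerm R.r (T5.AdelicAut.id ℚ) (MQ298.pureQ298 S f₀ Fr) γ y
        = ∑ j ∈ J, (∏ v ∈ S, f₀ v ((finGL305 v y)⁻¹ * locG305 v γ * finGL305 v y)) *
            Fr ((MQ298.reGLQ298 y)⁻¹ * MQ298.reGLQ298 (T5.ratG γ * R.r ^ j)
              * MQ298.reGLQ298 y) := by
      show (∑' j : ℤ, MQ298.pureQ298 S f₀ Fr
        (y⁻¹ * T5.ratG γ * (T5.AdelicAut.id ℚ).onG y * R.r ^ j)) = _
      rw [tsum_eq_sum (s := J)]
      · exact Finset.sum_congr rfl fun j _ => hPF R.r hR.ray S f₀ Fr γ hint y j hy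
      · intro j hj
        rw [hPF R.r hR.ray S f₀ Fr γ hint y j hy, hJ j hj, mul_zero]
    have h2 : MQ298.prodCutQ298 S cT L y
        = cT⁻¹ * (∏ v ∈ S, L.βv v (finGL305 v y)) * L.βr (MQ298.reGLQ298 y) := by
      show (if OutT305 S y then _ else _) = _
      rw [if_pos hy]
    have h3 : (∏ v : S, aFn751 L f₀ v.1 ((MQ298.compSQ298 S y).1 v))
        = (∏ v ∈ S, f₀ v ((finGL305 v y)⁻¹ * locG305 v γ * finGL305 v y))
          * ((∏ v ∈ S, L.βv v (finGL305 v y) : ℝ) : ℂ) := by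
      rw [Complex.ofReal_prod, ← Finset.prod_mul_distrib]
      exact Finset.prod_coe_sort S
        (fun v => f₀ v ((finGL305 v y)⁻¹ * locG305 v γ * finGL305 v y)
          * ((L.βv v (finGL305 v y) : ℝ) : ℂ))
    have h4 : (∑ j ∈ J, bFn751 R.r L Fr j (MQ298.compSQ298 S y).2)
        = (∑ j ∈ J, Fr ((MQ298.reGLQ298 y)⁻¹ * MQ298.reGLQ298 (T5.ratG γ * R.r ^ j)
              * MQ298.reGLQ298 y)) * ((L.βr (MQ298.reGLQ298 y) : ℝ) : ℂ) := by
      rw [Finset.sum_mul]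
      rfl
    rw [h1, h2, h3, h4, ← Finset.mul_sum]
    push_cast
    ring
  · rw [Set.indicator_of_notMem (show y ∉ {y : G ℚ | OutT305 S y} from hy)]
    have h2 : MQ298.prodCutQ298 S cT L y = 0 := by
      show (if OutT305 S y then _ else _) = _
      rw [if_neg hy]
    rw [h2, Complex.ofReal_zero, mul_zero]

/-! ## 3. The top of PART B -/

/-- **THE TOP OF PART B.** -/
theorem factIntDownQC_of751 (hHS : MQ298.HaarSplitQC298) (hOpen : H558.OutOpenC558 ℚ)
    (hCont : H558.CompContC558 ℚ) (hRe : ReContQC751) (hBI : H558.BiInvContC558 ℚ)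
    (hRF : RayFinQC751) (hPF : PtFactQC751) (hAI : ArchIntblRC751)
    (hσ : H558.HaarSigmaC558 ℚ) (hσR : HaarSigmaRC751) : FactIntDownQC751 := by
  classical
  intro R hR μr hμr T₀ m hm
  obtain ⟨c, hc, hsplit⟩ := hHS R.μ hR.frame.haar μr hμr T₀ m hm
  refine ⟨c, hc, ?_⟩
  intro S hS f₀ Fr hf₀ hFc hFs γ hγ hgood μT _hμT L cT hL _hcT _hT
  have hsp := hsplit S hS L.μv hL.haar
  have hint : IntOut305 S γ := fun v hv => (hgood v hv).1
  obtain ⟨J, hJ⟩ := hRF R.r hR.ray Fr hFc hFs γ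
  -- measurable structures
  have hBG : BorelSpace (G ℚ) := ⟨rfl⟩
  let mv : ∀ v : HeightOneSpectrum (𝓞 ℚ), MeasurableSpace (GL (Fin 2) (v.adicCompletion ℚ)) :=
    fun _ => borel _
  let mr : MeasurableSpace (GL (Fin 2) ℝ) := borel _
  have hBv : ∀ v : HeightOneSpectrum (𝓞 ℚ), BorelSpace (GL (Fin 2) (v.adicCompletion ℚ)) :=
    fun _ => ⟨rfl⟩
  have hBr : BorelSpace (GL (Fin 2) ℝ) := ⟨rfl⟩
  have hσv : ∀ v : S, SigmaFinite (L.μv v.1) := fun v => hσ.1 v.1 (L.μv v.1) (hL.haar v.1).1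
  have hσr : SigmaFinite μr := hσR.1 μr hμr
  -- the components are measurable
  have hcomp : Measurable (MQ298.compSQ298 S) := by
    refine Measurable.prodMk ?_ ?_
    · exact measurable_pi_lambda _ fun v => (hCont.1 v.1).measurable
    · exact hRe.measurable
  -- the local integrands
  have ha : ∀ v : S, Measurable (aFn751 L f₀ v.1) := fun v =>
    (continuous_locFn751 (hL.cut v.1).1 (hBI v.1 (m v.1) (f₀ v.1) (hf₀ v.1 v.2).1)
      (locG305 v.1 γ)).measurable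
  have hbc : ∀ j : ℤ, Continuous (bFn751 R.r L Fr j) := fun j =>
    continuous_locFn751 hL.cutr.1 hFc _
  have hbi : ∀ j ∈ J, Integrable (bFn751 R.r L Fr j) μr := by
    intro j _
    have h := hAI μr hμr Fr hFc hFs (MQ298.reGLQ298 (T5.ratG γ)) (MQ298.isReg_reGLQ298 hγ)
      (MQ298.reGLQ298 (R.r ^ j)) (reGL_ray_zpow_comm751 hR.ray j) L.μtr hL.torr L.βr hL.cutr
    have e : MQ298.reGLQ298 (T5.ratG γ) * MQ298.reGLQ298 (R.r ^ j)
        = MQ298.reGLQ298 (T5.ratG γ * R.r ^ j) := (map_mul _ _ _).symm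
    rw [e] at h
    exact h
  -- the integral
  have key := integral_split751 R.μ (fun v : S => L.μv v.1) μr {y : G ℚ | OutT305 S y}
    (MQ298.compSQ298 S) hcomp c hc.le hsp (fun v : S => aFn751 L f₀ v.1) ha J
    (fun j => bFn751 R.r L Fr j) (fun j _ => (hbc j).measurable) hbi
  have hL1 : cutInt305 R.r (T5.AdelicAut.id ℚ) (MQ298.pureQ298 S f₀ Fr) γ R.μ
        (MQ298.prodCutQ298 S cT L)
      = ((cT⁻¹ : ℝ) : ℂ) * ((c : ℂ) * ((∏ v : S, ∫ y, aFn751 L f₀ v.1 y ∂(L.μv v.1))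
          * ∑ j ∈ J, ∫ z, bFn751 R.r L Fr j z ∂μr)) := by
    unfold cutInt305
    rw [← key, ← integral_const_mul, ← integral_indicator (hOpen S).measurableSet]
    refine integral_congr_ae (Filter.Eventually.of_forall fun y => ?_)
    exact integrand_eq751 hPF R hR S f₀ Fr γ hint L cT J hJ y
  have hR1 : MQ298.factValQ298 R.r S L f₀ μr Fr
      = (∏ v : S, ∫ y, aFn751 L f₀ v.1 y ∂(L.μv v.1))
          * ∑ j ∈ J, ∫ z, bFn751 R.r L Fr j z ∂μr := by
    unfold MQ298.factValQ298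
    have e1 : (∏ v ∈ S, locInt305 (L.μv v) (L.βv v) (f₀ v) (locG305 v γ))
        = ∏ v : S, ∫ y, aFn751 L f₀ v.1 y ∂(L.μv v.1) :=
      (Finset.prod_coe_sort S
        (fun v => locInt305 (L.μv v) (L.βv v) (f₀ v) (locG305 v γ))).symm
    rw [tsum_eq_sum (s := J), ← Finset.mul_sum, e1]
    · rfl
    · intro j hj
      have h0 : locInt305 μr L.βr Fr (MQ298.reGLQ298 (T5.ratG γ * R.r ^ j)) = 0 := by
        unfold locInt305
        have : (fun y : GL (Fin 2) ℝ =>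
            Fr (y⁻¹ * MQ298.reGLQ298 (T5.ratG γ * R.r ^ j) * y) * ((L.βr y : ℝ) : ℂ))
            = fun _ => 0 := by
          funext y
          rw [hJ j hj y, zero_mul]
        rw [this, integral_zero]
      rw [h0, mul_zero]
  rw [hL1, hR1]
  push_cast
  ring

end Fermat.Agent.LT.T7.H751

end
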