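import Mathlib
import Fermat.Agent.LT.T7.H751.FactDownQTopA
import Fermat.Agent.LT.T7.H751.FactDownQTopB

/-!
# Row LT, tower T7, node Q2.7.7 `MQ298.FactDownQC298` (helper751, registry 2675): THE TOP

OFF-MAIN.  Complete proof, nothing assumed.

    factDownQC_of751 : H305.SuppDownC305 ℚ → H558.OutOpenC558 ℚ → H558.CompContC558 ℚ →
        H558.TorCommIdC558 ℚ → H558.BiInvContC558 ℚ → H558.HaarSigmaC558 ℚ →
        MQ298.HaarSplitQC298 → ReContQC751 → SuppOutQC751 → CutOnOutQC751 → RayFinQC751 →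
        PtFactQC751 → ArchIntblRC751 → HaarSigmaRC751 → MQ298.FactDownQC298

(first line: leaves of the cubic cuts with `K = ℚ`; second line: `HaarSplitQC298` of helper298
and the seven leaves of this cut).
-/

set_option autoImplicit false

open AutomorphicForm IsDedekindDomain NumberField MeasureTheory

noncomputable section

namespace Fermat.Agent.LT.T7.H751

open Fermat.Agent.LT.H556 Fermat.Agent.LT.H556.A0 Fermat.Agent.LT.T7 Fermat.Agent.LT.T7.H305

/-- **THE TOP of the node `MQ298.FactDownQC298`.** -/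
theorem factDownQC_of751 (hSD : SuppDownC305 ℚ) (hOpen : H558.OutOpenC558 ℚ)
    (hCont : H558.CompContC558 ℚ) (hComm : H558.TorCommIdC558 ℚ)
    (hBI : H558.BiInvContC558 ℚ) (hσ : H558.HaarSigmaC558 ℚ) (hHS : MQ298.HaarSplitQC298)
    (hRe : ReContQC751) (hSO : SuppOutQC751) (hCut : CutOnOutQC751) (hRF : RayFinQC751)
    (hPF : PtFactQC751) (hAI : ArchIntblRC751) (hσR : HaarSigmaRC751) :
    MQ298.FactDownQC298 :=
  factDownQC_of_parts751
    (cutOnDownQC_of751 hSD hOpen hCont hRe hComm hSO hσ hσR hCut)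
    (factIntDownQC_of751 hHS hOpen hCont hRe hBI hRF hPF hAI hσ hσR)

end Fermat.Agent.LT.T7.H751

end
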